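/-
S12 programme, brick 758 (RAT), part 1 (helper68): rationality of Galois-stable products.

* `prod_mem_ratSub_of_stable`  : `X` a finite `G_ℚ`-stable subset of `ℚbar`, `f : ℚbar → ℚbar` a
                                 `G_ℚ`-equivariant function: `∏_{ξ ∈ X} f ξ ∈ ℚ`.
* `prod_sub_mem_ratSub`        : `∏_{ξ ∈ X} (ξ - c) ∈ ℚ` for `c ∈ ℚ`.
* `halfProd_mem_ratSub_of_equivariant`, `halfProd_sub_mem_ratSub`, `halfProd_mul_sub_mem_ratSub`:
  `V/ℚ` a Weierstrass curve, `t ∈ V(ℚbar)` a point of exact order `p = 2m+1` such that every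
  Galois conjugate of `t` is a multiple of `t`: then `∏_{k=1}^m f (x(k•t)) ∈ ℚ` for every
  equivariant `f`; in particular `∏_{k=1}^m (x(k•t) - c)` and `∏_{k=1}^m (a x(k•t) - c)` are rational
  for rational `a, c`.
* `halfProd_fixed`             : the same in the form `σ r = r`.
-/
import Mathlib
import Fermat.Prelude.Def_FLTPrelim_GaloisRep
import Fermat.Agent.MAZ.EF86.Rat

set_option autoImplicit false

open WeierstrassCurve
open scoped WeierstrassCurve.Affine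

noncomputable section

namespace Fermat.Agent.S12P.Rat68

open Fermat.Agent.MAZ.ModInv Fermat.Agent.MAZ.EF86.Rat

local notation "Qb" => AlgebraicClosure ℚ

/-! ### Finite stable sets of algebraic numbers -/

/-- A `G_ℚ`-stable finite set is mapped onto itself by every `σ`. -/
theorem image_eq_of_stable (X : Finset Qb) (hX : ∀ σ : Qb ≃ₐ[ℚ] Qb, ∀ ξ ∈ X, σ ξ ∈ X)
    (σ : Qb ≃ₐ[ℚ] Qb) : X.image (fun ξ => σ ξ) = X := by
  apply Finset.eq_of_subset_of_card_le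
  · intro ξ hξ
    obtain ⟨η, hη, rfl⟩ := Finset.mem_image.mp hξ
    exact hX σ η hη
  · rw [Finset.card_image_of_injective _ σ.injective]

/-- The product of an equivariant function over a `G_ℚ`-stable finite set is fixed by `G_ℚ`. -/
theorem prod_fixed_of_stable (X : Finset Qb) (hX : ∀ σ : Qb ≃ₐ[ℚ] Qb, ∀ ξ ∈ X, σ ξ ∈ X)
    (f : Qb → Qb) (hf : ∀ (σ : Qb ≃ₐ[ℚ] Qb) (ξ : Qb), σ (f ξ) = f (σ ξ))
    (σ : Qb ≃ₐ[ℚ] Qb) : σ (∏ ξ ∈ X, f ξ) = ∏ ξ ∈ X, f ξ := by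
  rw [map_prod]
  have himg := image_eq_of_stable X hX σ
  calc ∏ ξ ∈ X, σ (f ξ) = ∏ ξ ∈ X, f (σ ξ) := Finset.prod_congr rfl fun ξ _ => hf σ ξ
    _ = ∏ η ∈ X.image (fun ξ => σ ξ), f η :=
        (Finset.prod_image fun a _ b _ hab => σ.injective hab).symm
    _ = ∏ ξ ∈ X, f ξ := by rw [himg]

/-- The product of an equivariant function over a `G_ℚ`-stable finite set is rational. -/
theorem prod_mem_ratSub_of_stable (X : Finset Qb) (hX : ∀ σ : Qb ≃ₐ[ℚ] Qb, ∀ ξ ∈ X, σ ξ ∈ X)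
    (f : Qb → Qb) (hf : ∀ (σ : Qb ≃ₐ[ℚ] Qb) (ξ : Qb), σ (f ξ) = f (σ ξ)) :
    ∏ ξ ∈ X, f ξ ∈ ratSub :=
  mem_ratSub_of_fixed fun σ => prod_fixed_of_stable X hX f hf σ

/-- Elements of `ratSub` are fixed by every automorphism. -/
theorem apply_eq_of_mem_ratSub {c : Qb} (hc : c ∈ ratSub) (σ : Qb ≃ₐ[ℚ] Qb) : σ c = c := by
  obtain ⟨q, rfl⟩ := hc
  exact σ.commutes q

/-- `ξ ↦ a * ξ - c` is equivariant for rational `a`, `c`. -/
theorem equivariant_mul_sub {a c : Qb} (ha : a ∈ ratSub) (hc : c ∈ ratSub)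
    (σ : Qb ≃ₐ[ℚ] Qb) (ξ : Qb) : σ (a * ξ - c) = a * σ ξ - c := by
  rw [map_sub, map_mul, apply_eq_of_mem_ratSub ha, apply_eq_of_mem_ratSub hc]

/-- `ξ ↦ ξ - c` is equivariant for rational `c`. -/
theorem equivariant_sub {c : Qb} (hc : c ∈ ratSub)
    (σ : Qb ≃ₐ[ℚ] Qb) (ξ : Qb) : σ (ξ - c) = σ ξ - c := by
  rw [map_sub, apply_eq_of_mem_ratSub hc]

/-- `∏_{ξ ∈ X} (ξ - c) ∈ ℚ` for a `G_ℚ`-stable finite set `X` and `c ∈ ℚ`. -/
theorem prod_sub_mem_ratSub (X : Finset Qb) (hX : ∀ σ : Qb ≃ₐ[ℚ] Qb, ∀ ξ ∈ X, σ ξ ∈ X)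
    {c : Qb} (hc : c ∈ ratSub) : ∏ ξ ∈ X, (ξ - c) ∈ ratSub :=
  prod_mem_ratSub_of_stable X hX (fun ξ => ξ - c) (equivariant_sub hc)

/-- The same with `c : ℚ`, as an existence statement. -/
theorem exists_rat_prod_sub (X : Finset Qb) (hX : ∀ σ : Qb ≃ₐ[ℚ] Qb, ∀ ξ ∈ X, σ ξ ∈ X)
    (c : ℚ) : ∃ q : ℚ, algebraMap ℚ Qb q = ∏ ξ ∈ X, (ξ - algebraMap ℚ Qb c) :=
  prod_sub_mem_ratSub X hX (algebraMap_mem_ratSub c)

/-! ### Points of a curve over `ℚ` -/

variable (V : WeierstrassCurve ℚ)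

theorem xco_smul (σ : Qb ≃ₐ[ℚ] Qb) (P : (V⁄Qb).Point) :
    xco (V.baseChange Qb) (σ • P) = σ (xco (V.baseChange Qb) P) := by
  cases P with
  | zero =>
    show (0 : Qb) = σ 0
    rw [map_zero]
  | some x y h => rfl

theorem xco_neg (P : (V⁄Qb).Point) :
    xco (V.baseChange Qb) (-P) = xco (V.baseChange Qb) P := by
  cases P with
  | zero => rfl
  | some x y h => rfl

theorem smul_nsmul (σ : Qb ≃ₐ[ℚ] Qb) (k : ℕ) (P : (V⁄Qb).Point) :
    σ • (k • P) = k • (σ • P) := by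
  rw [Affine.Point.algEquiv_smul_def, map_nsmul, ← Affine.Point.algEquiv_smul_def]

theorem smul_eq_zero_iff (σ : Qb ≃ₐ[ℚ] Qb) (P : (V⁄Qb).Point) : σ • P = 0 ↔ P = 0 := by
  cases P with
  | zero => exact ⟨fun _ => rfl, fun _ => rfl⟩
  | some x y h =>
    constructor
    · intro h'
      rw [Affine.Point.algEquiv_smul_def, Affine.Point.map_some] at h'
      exact absurd h' (Affine.Point.some_ne_zero _)
    · intro h'
      exact absurd h' (Affine.Point.some_ne_zero _)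

/-- Two nonzero points with the same abscissa are equal or opposite. -/
theorem eq_or_eq_neg_of_xco_eq {P Q : (V⁄Qb).Point} (hP : P ≠ 0) (hQ : Q ≠ 0)
    (h : xco (V.baseChange Qb) P = xco (V.baseChange Qb) Q) : P = Q ∨ P = -Q := by
  cases P with
  | zero => exact absurd rfl hP
  | some x y hxy =>
    cases Q with
    | zero => exact absurd rfl hQ
    | some x' y' hxy' =>
      have hx : x = x' := h
      subst hx
      rcases Affine.Y_eq_of_X_eq hxy.1 hxy'.1 rfl with hy | hy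
      · subst hy
        exact Or.inl rfl
      · right
        rw [Affine.Point.neg_some]
        congr 1

/-! ### The half product over the multiples of a point generating a stable cyclic subgroup -/

section Half

variable {V}
variable {t : (V⁄Qb).Point} {p m : ℕ}

/-- the multiples `k • t`, `1 ≤ k ≤ m`, of a point of order `2m+1` are nonzero -/
theorem nsmul_ne_zero_of_mem_Icc (hp : p = 2 * m + 1) (hord : addOrderOf t = p) {k : ℕ}
    (hk : k ∈ Finset.Icc 1 m) : k • t ≠ 0 := by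
  obtain ⟨hk1, hkm⟩ := Finset.mem_Icc.mp hk
  intro h0
  have hdvd : p ∣ k := hord ▸ addOrderOf_dvd_of_nsmul_eq_zero h0
  have := Nat.le_of_dvd (by omega) hdvd
  omega

/-- the abscissas `x(k • t)`, `1 ≤ k ≤ m`, of a point of order `2m+1` are pairwise distinct -/
theorem xco_nsmul_injOn (hp : p = 2 * m + 1) (hord : addOrderOf t = p) :
    Set.InjOn (fun k : ℕ => xco (V.baseChange Qb) (k • t)) (Finset.Icc 1 m : Set ℕ) := by
  intro k hk k' hk' hxx
  have hk0 := nsmul_ne_zero_of_mem_Icc hp hord hk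
  have hk'0 := nsmul_ne_zero_of_mem_Icc hp hord hk'
  obtain ⟨hk1, hkm⟩ := Finset.mem_Icc.mp hk
  obtain ⟨hk'1, hk'm⟩ := Finset.mem_Icc.mp hk'
  rcases eq_or_eq_neg_of_xco_eq V hk0 hk'0 hxx with h | h
  · have hmod : k ≡ k' [MOD p] := by
      rw [← hord]
      exact (nsmul_eq_nsmul_iff_modEq).mp h
    have h1 : k % p = k := Nat.mod_eq_of_lt (by omega)
    have h2 : k' % p = k' := Nat.mod_eq_of_lt (by omega)
    have : k % p = k' % p := hmod
    omega
  · exfalso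
    have h0 : (k + k') • t = 0 := by
      rw [add_nsmul, h, neg_add_cancel]
    have hdvd : p ∣ k + k' := hord ▸ addOrderOf_dvd_of_nsmul_eq_zero h0
    have := Nat.le_of_dvd (by omega) hdvd
    omega

/-- the finite set of abscissas `x(k • t)`, `1 ≤ k ≤ m` -/
def halfSet (V : WeierstrassCurve ℚ) (t : (V⁄Qb).Point) (m : ℕ) : Finset Qb :=
  (Finset.Icc 1 m).image fun k : ℕ => xco (V.baseChange Qb) (k • t)

theorem prod_halfSet (hp : p = 2 * m + 1) (hord : addOrderOf t = p) (f : Qb → Qb) :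
    ∏ ξ ∈ halfSet V t m, f ξ = ∏ k ∈ Finset.Icc 1 m, f (xco (V.baseChange Qb) (k • t)) := by
  unfold halfSet
  rw [Finset.prod_image]
  exact xco_nsmul_injOn hp hord

/-- if every conjugate of `t` is a multiple of `t`, the set of abscissas of the multiples
`k • t`, `1 ≤ k ≤ m`, is Galois-stable. -/
theorem halfSet_stable (hp : p = 2 * m + 1) (hord : addOrderOf t = p)
    (hstab : ∀ σ : Qb ≃ₐ[ℚ] Qb, σ • t ∈ AddSubgroup.zmultiples t)
    (σ : Qb ≃ₐ[ℚ] Qb) : ∀ ξ ∈ halfSet V t m, σ ξ ∈ halfSet V t m := by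
  intro ξ hξ
  obtain ⟨k, hk, rfl⟩ := Finset.mem_image.mp hξ
  obtain ⟨hk1, hkm⟩ := Finset.mem_Icc.mp hk
  have hk0 := nsmul_ne_zero_of_mem_Icc hp hord hk
  have hfin : IsOfFinAddOrder t := by
    rw [← addOrderOf_pos_iff, hord]; omega
  obtain ⟨j, -, hj⟩ := Finset.mem_image.mp
    ((hfin.mem_zmultiples_iff_mem_range_addOrderOf).mp (hstab σ))
  -- `σ (x (k • t)) = x ((k * j) • t)`
  have h1 : σ (xco (V.baseChange Qb) (k • t)) = xco (V.baseChange Qb) ((k * j) • t) := by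
    rw [← xco_smul, smul_nsmul, ← hj, mul_nsmul']
  have h2 : (k * j) • t ≠ 0 := by
    rw [mul_nsmul', hj, ← smul_nsmul]
    exact fun h => hk0 ((smul_eq_zero_iff V σ _).mp h)
  set r := (k * j) % p with hr
  have h3 : r • t = (k * j) • t := by
    rw [hr, ← hord]; exact mod_addOrderOf_nsmul t (k * j)
  have hrp : r < p := Nat.mod_lt _ (by omega)
  have hr0 : r ≠ 0 := by
    intro h
    rw [h, zero_nsmul] at h3
    exact h2 h3.symm
  rw [h1, ← h3]
  by_cases hrm : r ≤ m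
  · exact Finset.mem_image.mpr ⟨r, Finset.mem_Icc.mpr ⟨by omega, hrm⟩, rfl⟩
  · refine Finset.mem_image.mpr ⟨p - r, Finset.mem_Icc.mpr ⟨by omega, by omega⟩, ?_⟩
    show xco (V.baseChange Qb) ((p - r) • t) = xco (V.baseChange Qb) (r • t)
    have h4 : (p - r) • t = -(r • t) := by
      rw [eq_neg_iff_add_eq_zero, ← add_nsmul, Nat.sub_add_cancel hrp.le, ← hord]
      exact addOrderOf_nsmul_eq_zero t
    rw [h4, xco_neg]

/-- **RAT (1), general form.**  `t` of exact order `p = 2m+1`, all conjugates of `t` multiples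
of `t`, `f` equivariant: `∏_{k=1}^m f (x(k • t))` is fixed by `G_ℚ`. -/
theorem halfProd_fixed (hp : p = 2 * m + 1) (hord : addOrderOf t = p)
    (hstab : ∀ σ : Qb ≃ₐ[ℚ] Qb, σ • t ∈ AddSubgroup.zmultiples t)
    (f : Qb → Qb) (hf : ∀ (σ : Qb ≃ₐ[ℚ] Qb) (ξ : Qb), σ (f ξ) = f (σ ξ))
    (σ : Qb ≃ₐ[ℚ] Qb) :
    σ (∏ k ∈ Finset.Icc 1 m, f (xco (V.baseChange Qb) (k • t))) =
      ∏ k ∈ Finset.Icc 1 m, f (xco (V.baseChange Qb) (k • t)) := by
  rw [← prod_halfSet hp hord f]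
  exact prod_fixed_of_stable _ (fun τ => halfSet_stable hp hord hstab τ) f hf σ

/-- **RAT (1), general form.**  `∏_{k=1}^m f (x(k • t)) ∈ ℚ`. -/
theorem halfProd_mem_ratSub_of_equivariant (hp : p = 2 * m + 1) (hord : addOrderOf t = p)
    (hstab : ∀ σ : Qb ≃ₐ[ℚ] Qb, σ • t ∈ AddSubgroup.zmultiples t)
    (f : Qb → Qb) (hf : ∀ (σ : Qb ≃ₐ[ℚ] Qb) (ξ : Qb), σ (f ξ) = f (σ ξ)) :
    ∏ k ∈ Finset.Icc 1 m, f (xco (V.baseChange Qb) (k • t)) ∈ ratSub :=
  mem_ratSub_of_fixed fun σ => halfProd_fixed hp hord hstab f hf σ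

/-- **RAT (1).**  `∏_{k=1}^m (x(k • t) - c) ∈ ℚ` for rational `c`. -/
theorem halfProd_sub_mem_ratSub (hp : p = 2 * m + 1) (hord : addOrderOf t = p)
    (hstab : ∀ σ : Qb ≃ₐ[ℚ] Qb, σ • t ∈ AddSubgroup.zmultiples t)
    {c : Qb} (hc : c ∈ ratSub) :
    ∏ k ∈ Finset.Icc 1 m, (xco (V.baseChange Qb) (k • t) - c) ∈ ratSub :=
  halfProd_mem_ratSub_of_equivariant hp hord hstab (fun ξ => ξ - c) (equivariant_sub hc)

/-- **RAT (1), scaled.**  `∏_{k=1}^m (a x(k • t) - c) ∈ ℚ` for rational `a`, `c`. -/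
theorem halfProd_mul_sub_mem_ratSub (hp : p = 2 * m + 1) (hord : addOrderOf t = p)
    (hstab : ∀ σ : Qb ≃ₐ[ℚ] Qb, σ • t ∈ AddSubgroup.zmultiples t)
    {a c : Qb} (ha : a ∈ ratSub) (hc : c ∈ ratSub) :
    ∏ k ∈ Finset.Icc 1 m, (a * xco (V.baseChange Qb) (k • t) - c) ∈ ratSub :=
  halfProd_mem_ratSub_of_equivariant hp hord hstab (fun ξ => a * ξ - c)
    (equivariant_mul_sub ha hc)

/-- existence form with `c : ℚ` -/
theorem exists_rat_halfProd_sub (hp : p = 2 * m + 1) (hord : addOrderOf t = p)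
    (hstab : ∀ σ : Qb ≃ₐ[ℚ] Qb, σ • t ∈ AddSubgroup.zmultiples t) (c : ℚ) :
    ∃ q : ℚ, algebraMap ℚ Qb q =
      ∏ k ∈ Finset.Icc 1 m, (xco (V.baseChange Qb) (k • t) - algebraMap ℚ Qb c) :=
  halfProd_sub_mem_ratSub hp hord hstab (algebraMap_mem_ratSub c)

/-! #### convenience: the hypotheses in the shapes met in practice -/

/-- a nonzero point killed by a prime `p` has exact order `p` -/
theorem addOrderOf_eq_of_prime (hpp : p.Prime) (ht0 : t ≠ 0) (htp : p • t = 0) :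
    addOrderOf t = p :=
  have : Fact p.Prime := ⟨hpp⟩
  addOrderOf_eq_prime htp ht0

/-- `σ • t = j • t` with `j : ℕ` gives membership in `zmultiples` -/
theorem mem_zmultiples_of_nsmul {P : (V⁄Qb).Point} {j : ℕ} (h : P = j • t) :
    P ∈ AddSubgroup.zmultiples t :=
  h ▸ AddSubgroup.nsmul_mem_zmultiples t j

/-- `σ • t = j • t` with `j : ℤ` gives membership in `zmultiples` -/
theorem mem_zmultiples_of_zsmul {P : (V⁄Qb).Point} {j : ℤ} (h : P = j • t) :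
    P ∈ AddSubgroup.zmultiples t :=
  h ▸ AddSubgroup.zsmul_mem_zmultiples t j

/-- if `t` lies in a Galois-stable subgroup all of whose elements are multiples of `t`,
every conjugate of `t` is a multiple of `t`. -/
theorem stab_of_subgroup (N : AddSubgroup (V⁄Qb).Point) (htN : t ∈ N)
    (hN : ∀ σ : Qb ≃ₐ[ℚ] Qb, ∀ P ∈ N, σ • P ∈ N) (hcyc : N ≤ AddSubgroup.zmultiples t)
    (σ : Qb ≃ₐ[ℚ] Qb) : σ • t ∈ AddSubgroup.zmultiples t :=
  hcyc (hN σ t htN)

end Half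

end Fermat.Agent.S12P.Rat68
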