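/-
S12 programme, brick 758 (RAT), adapter (helper68): the rationality statement of `Rat68.Stable`
in the vocabulary of `HasGaloisStableCofixedLine` (a Galois-stable `ZMod p`-submodule `N` of
`E[p]` with `p` elements, `t ∈ N` nonzero).

* `card_eq_of_proper`             : a proper nonzero submodule of a `ZMod p`-space with `≤ p²`
                                    elements has `p` elements (feeds `hcard` below).
* `smul_mem_zmultiples_of_card`   : every conjugate of `t` is a multiple of `t`.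
* `addOrderOf_coe_eq`             : `t` has exact order `p`.
* `line_halfProd_mem_ratSub_of_equivariant`, `line_halfProd_sub_mem_ratSub`,
  `line_halfProd_mul_sub_mem_ratSub` : `∏_{k=1}^m f(x(k•t)) ∈ ℚ`, etc.
-/
import Mathlib
import Fermat.Prelude.Def_FLTPrelim_GaloisRep
import Fermat.Agent.S12P.Rat68.Stable

set_option autoImplicit false

open WeierstrassCurve
open scoped WeierstrassCurve.Affine

noncomputable section

namespace Fermat.Agent.S12P.Rat68

open Fermat.Agent.MAZ.ModInv Fermat.Agent.MAZ.EF86.Rat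

local notation "Qb" => AlgebraicClosure ℚ

/-- In a finite `ZMod p`-vector space with at most `p²` elements, a submodule which is neither
`⊥` nor `⊤` has exactly `p` elements. -/
theorem card_eq_of_proper {p : ℕ} (hpp : p.Prime) {M : Type*} [AddCommGroup M]
    [Module (ZMod p) M] [Finite M] (hcard : Nat.card M ≤ p ^ 2)
    (N : Submodule (ZMod p) M) (hbot : N ≠ ⊥) (htop : N ≠ ⊤) : Nat.card N = p := by
  have : Fact p.Prime := ⟨hpp⟩
  have hfin : Module.Finite (ZMod p) M := Module.Finite.of_finite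
  have hM : Nat.card M = p ^ Module.finrank (ZMod p) M := by
    rw [Module.natCard_eq_pow_finrank (K := ZMod p) (V := M), Nat.card_zmod]
  have hN : Nat.card N = p ^ Module.finrank (ZMod p) N := by
    rw [Module.natCard_eq_pow_finrank (K := ZMod p) (V := N), Nat.card_zmod]
  have h0 : Module.finrank (ZMod p) M ≤ 2 := by
    rw [hM] at hcard
    exact (Nat.pow_le_pow_iff_right hpp.one_lt).mp hcard
  have h1 : Module.finrank (ZMod p) N < Module.finrank (ZMod p) M := Submodule.finrank_lt htop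
  have h2 : 0 < Module.finrank (ZMod p) N := by
    rw [Module.finrank_pos_iff_exists_ne_zero]
    obtain ⟨x, hxN, hx0⟩ := (Submodule.ne_bot_iff N).mp hbot
    exact ⟨⟨x, hxN⟩, fun h => hx0 (congrArg Subtype.val h)⟩
  have h3 : Module.finrank (ZMod p) N = 1 := by omega
  rw [hN, h3, pow_one]

variable {V : WeierstrassCurve ℚ} {p m : ℕ}

/-- an element of `E[p]` is killed by `p` (as a point). -/
theorem nsmul_coe_eq_zero (t : Submodule.torsionBy ℤ (V⁄Qb).Point p) :
    p • (t : (V⁄Qb).Point) = 0 := by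
  have h := t.2
  rw [Submodule.mem_torsionBy_iff] at h
  rw [← Nat.cast_smul_eq_nsmul ℤ]
  exact h

/-- a nonzero element of `E[p]`, `p` prime, has exact order `p` (as a point). -/
theorem addOrderOf_coe_eq (hpp : p.Prime)
    {t : Submodule.torsionBy ℤ (V⁄Qb).Point p} (ht0 : t ≠ 0) :
    addOrderOf (t : (V⁄Qb).Point) = p :=
  addOrderOf_eq_of_prime hpp (fun h => ht0 (Subtype.ext h)) (nsmul_coe_eq_zero t)

/-- In a Galois-stable subgroup `N ⊆ E[p]` with `p` elements, every conjugate of a nonzero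
`t ∈ N` is a multiple of `t`. -/
theorem smul_mem_zmultiples_of_card (hpp : p.Prime)
    (N : Submodule (ZMod p) (Submodule.torsionBy ℤ (V⁄Qb).Point p))
    (hN : Affine.Point.IsGaloisStable (W' := V) ℚ N) (hcard : Nat.card N = p)
    {t : Submodule.torsionBy ℤ (V⁄Qb).Point p} (htN : t ∈ N) (ht0 : t ≠ 0)
    (σ : Qb ≃ₐ[ℚ] Qb) :
    σ • (t : (V⁄Qb).Point) ∈ AddSubgroup.zmultiples (t : (V⁄Qb).Point) := by
  have : Fact p.Prime := ⟨hpp⟩
  have hne : (⟨t, htN⟩ : N) ≠ 0 := fun h => ht0 (congrArg Subtype.val h)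
  have hmem : (⟨σ • t, hN σ t htN⟩ : N) ∈ AddSubgroup.zmultiples (⟨t, htN⟩ : N) :=
    mem_zmultiples_of_prime_card hcard hne
  obtain ⟨j, hj⟩ := AddSubgroup.mem_zmultiples_iff.mp hmem
  refine AddSubgroup.mem_zmultiples_iff.mpr ⟨j, ?_⟩
  have h1 : ((j • (⟨t, htN⟩ : N) : N) : Submodule.torsionBy ℤ (V⁄Qb).Point p) = σ • t :=
    congrArg Subtype.val hj
  have h2 : (((j • (⟨t, htN⟩ : N) : N) : Submodule.torsionBy ℤ (V⁄Qb).Point p) : (V⁄Qb).Point)
      = ((σ • t : Submodule.torsionBy ℤ (V⁄Qb).Point p) : (V⁄Qb).Point) :=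
    congrArg Subtype.val h1
  rw [Submodule.coe_smul_of_tower, Submodule.coe_smul_of_tower] at h2
  exact h2

variable {t : Submodule.torsionBy ℤ (V⁄Qb).Point p}

/-- **RAT (1)** in the vocabulary of the cofixed line, general equivariant `f`. -/
theorem line_halfProd_mem_ratSub_of_equivariant (hpp : p.Prime) (hp : p = 2 * m + 1)
    (N : Submodule (ZMod p) (Submodule.torsionBy ℤ (V⁄Qb).Point p))
    (hN : Affine.Point.IsGaloisStable (W' := V) ℚ N) (hcard : Nat.card N = p)
    (htN : t ∈ N) (ht0 : t ≠ 0)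
    (f : Qb → Qb) (hf : ∀ (σ : Qb ≃ₐ[ℚ] Qb) (ξ : Qb), σ (f ξ) = f (σ ξ)) :
    ∏ k ∈ Finset.Icc 1 m, f (xco (V.baseChange Qb) (k • (t : (V⁄Qb).Point))) ∈ ratSub :=
  halfProd_mem_ratSub_of_equivariant hp (addOrderOf_coe_eq hpp ht0)
    (smul_mem_zmultiples_of_card hpp N hN hcard htN ht0) f hf

/-- **RAT (1)** in the vocabulary of the cofixed line: `∏_{k=1}^m (x(k•t) - c) ∈ ℚ`. -/
theorem line_halfProd_sub_mem_ratSub (hpp : p.Prime) (hp : p = 2 * m + 1)
    (N : Submodule (ZMod p) (Submodule.torsionBy ℤ (V⁄Qb).Point p))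
    (hN : Affine.Point.IsGaloisStable (W' := V) ℚ N) (hcard : Nat.card N = p)
    (htN : t ∈ N) (ht0 : t ≠ 0) {c : Qb} (hc : c ∈ ratSub) :
    ∏ k ∈ Finset.Icc 1 m, (xco (V.baseChange Qb) (k • (t : (V⁄Qb).Point)) - c) ∈ ratSub :=
  halfProd_sub_mem_ratSub hp (addOrderOf_coe_eq hpp ht0)
    (smul_mem_zmultiples_of_card hpp N hN hcard htN ht0) hc

/-- **RAT (1)** in the vocabulary of the cofixed line: `∏_{k=1}^m (a x(k•t) - c) ∈ ℚ`. -/
theorem line_halfProd_mul_sub_mem_ratSub (hpp : p.Prime) (hp : p = 2 * m + 1)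
    (N : Submodule (ZMod p) (Submodule.torsionBy ℤ (V⁄Qb).Point p))
    (hN : Affine.Point.IsGaloisStable (W' := V) ℚ N) (hcard : Nat.card N = p)
    (htN : t ∈ N) (ht0 : t ≠ 0) {a c : Qb} (ha : a ∈ ratSub) (hc : c ∈ ratSub) :
    ∏ k ∈ Finset.Icc 1 m, (a * xco (V.baseChange Qb) (k • (t : (V⁄Qb).Point)) - c) ∈ ratSub :=
  halfProd_mul_sub_mem_ratSub hp (addOrderOf_coe_eq hpp ht0)
    (smul_mem_zmultiples_of_card hpp N hN hcard htN ht0) ha hc

end Fermat.Agent.S12P.Rat68
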