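/-
S12 programme, brick 758 (RAT), Frey instance (helper68): unpacking of
`HasGaloisStableCofixedLine ℚ P.freyCurve P.p` into a generator `t` of the line, and the rationality
of the half products `∏_{k=1}^m (a x(k•t) - c)` for the Frey curve.
-/
import Mathlib
import Fermat.Prelude.Def_FLTPrelim_CofixedLine
import Fermat.Agent.S13.FreyTorsion
import Fermat.Agent.S12P.Rat68.Line

set_option autoImplicit false

open WeierstrassCurve WeierstrassCurve.Affine WeierstrassCurve.Affine.Point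

noncomputable section

namespace Fermat.Agent.S12P.Rat68

open Fermat.Agent.MAZ.ModInv Fermat.Agent.MAZ.EF86.Rat

local notation "Qb" => AlgebraicClosure ℚ

/-- a Galois-stable line of `E[p]` of the Frey curve (neither `⊥` nor `⊤`) has `p` elements. -/
theorem frey_card_line (P : FreyPackage)
    (N : Submodule (ZMod P.p) (Submodule.torsionBy ℤ (P.freyCurve⁄Qb).Point P.p))
    (hbot : N ≠ ⊥) (htop : N ≠ ⊤) : Nat.card N = P.p :=
  card_eq_of_proper P.pp (Fermat.Agent.S13.FreyTorsion.card_torsion_le P) N hbot htop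

/-- Unpacking of the cofixed line: a stable line `N`, a generator `t` (nonzero, of exact order `p`,
all of whose conjugates are multiples of `t`), every element of `N` a multiple of `t`, and the
cofixed property. -/
theorem frey_exists_generator (P : FreyPackage)
    (h : HasGaloisStableCofixedLine (K := AlgebraicClosure ℚ) ℚ P.freyCurve P.p) :
    ∃ (N : Submodule (ZMod P.p) (Submodule.torsionBy ℤ (P.freyCurve⁄Qb).Point P.p))
      (t : Submodule.torsionBy ℤ (P.freyCurve⁄Qb).Point P.p),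
      IsGaloisStable ℚ N ∧ N ≠ ⊥ ∧ N ≠ ⊤ ∧ Nat.card N = P.p ∧ t ∈ N ∧ t ≠ 0 ∧
      (t : (P.freyCurve⁄Qb).Point) ≠ 0 ∧ P.p • (t : (P.freyCurve⁄Qb).Point) = 0 ∧
      addOrderOf (t : (P.freyCurve⁄Qb).Point) = P.p ∧
      (∀ σ : Qb ≃ₐ[ℚ] Qb, σ • (t : (P.freyCurve⁄Qb).Point) ∈
        AddSubgroup.zmultiples (t : (P.freyCurve⁄Qb).Point)) ∧
      (∀ x ∈ N, ∃ j : ℕ, (x : (P.freyCurve⁄Qb).Point) = j • (t : (P.freyCurve⁄Qb).Point)) ∧
      (∀ σ : Qb ≃ₐ[ℚ] Qb, ∀ x : Submodule.torsionBy ℤ (P.freyCurve⁄Qb).Point P.p,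
        σ • x - x ∈ N) := by
  obtain ⟨N, hstab, hbot, htop, hcof⟩ := h
  have hcard : Nat.card N = P.p := frey_card_line P N hbot htop
  obtain ⟨t, htN, ht0⟩ := (Submodule.ne_bot_iff N).mp hbot
  have hord := addOrderOf_coe_eq (V := P.freyCurve) P.pp ht0
  refine ⟨N, t, hstab, hbot, htop, hcard, htN, ht0, fun h => ht0 (Subtype.ext h),
    nsmul_coe_eq_zero t, hord,
    smul_mem_zmultiples_of_card (V := P.freyCurve) P.pp N hstab hcard htN ht0, ?_, hcof⟩
  intro x hx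
  have : Fact P.p.Prime := ⟨P.pp⟩
  have hne : (⟨t, htN⟩ : N) ≠ 0 := fun h => ht0 (congrArg Subtype.val h)
  have hmem : (⟨x, hx⟩ : N) ∈ AddSubgroup.zmultiples (⟨t, htN⟩ : N) :=
    mem_zmultiples_of_prime_card hcard hne
  obtain ⟨j, hj⟩ := AddSubgroup.mem_zmultiples_iff.mp hmem
  have h1 : ((j • (⟨t, htN⟩ : N) : N) : Submodule.torsionBy ℤ (P.freyCurve⁄Qb).Point P.p) = x :=
    congrArg Subtype.val hj
  have h2 : (((j • (⟨t, htN⟩ : N) : N) : Submodule.torsionBy ℤ (P.freyCurve⁄Qb).Point P.p) :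
      (P.freyCurve⁄Qb).Point) = (x : (P.freyCurve⁄Qb).Point) := congrArg Subtype.val h1
  rw [Submodule.coe_smul_of_tower, Submodule.coe_smul_of_tower] at h2
  -- pass from `ℤ`-multiples to `ℕ`-multiples using the order
  have hfin : IsOfFinAddOrder (t : (P.freyCurve⁄Qb).Point) := by
    rw [← addOrderOf_pos_iff, hord]; exact P.pp.pos
  have hx' : (x : (P.freyCurve⁄Qb).Point) ∈
      AddSubgroup.zmultiples (t : (P.freyCurve⁄Qb).Point) :=
    AddSubgroup.mem_zmultiples_iff.mpr ⟨j, h2⟩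
  obtain ⟨i, -, hi⟩ := Finset.mem_image.mp
    ((hfin.mem_zmultiples_iff_mem_range_addOrderOf).mp hx')
  exact ⟨i, hi.symm⟩

/-- **RAT (1) for the Frey curve**: for the generator `t` of a stable line and rational `a`, `c`,
`∏_{k=1}^m (a x(k•t) - c) ∈ ℚ`, `p = 2m+1`. -/
theorem frey_halfProd_mul_sub_mem_ratSub (P : FreyPackage) {m : ℕ} (hm : P.p = 2 * m + 1)
    {t : (P.freyCurve⁄Qb).Point} (hord : addOrderOf t = P.p)
    (hstab : ∀ σ : Qb ≃ₐ[ℚ] Qb, σ • t ∈ AddSubgroup.zmultiples t)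
    {a c : Qb} (ha : a ∈ ratSub) (hc : c ∈ ratSub) :
    ∏ k ∈ Finset.Icc 1 m, (a * xco (P.freyCurve.baseChange Qb) (k • t) - c) ∈ ratSub :=
  halfProd_mul_sub_mem_ratSub (V := P.freyCurve) hm hord hstab ha hc

end Fermat.Agent.S12P.Rat68
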