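/-
S12 programme, brick 758 (RAT), parts 2 and 3 (helper68): a rational number which is a unit at
every prime is `±1`.

* `rat_eq_one_or_neg_one`            : `q ≠ 0`, `padicValRat ℓ q = 0` for all primes `ℓ` ⟹ `q = ±1`.
* `valuation_algebraMap_eq_one_iff`  : for `A | ℓ` a valuation subring of `ℚbar` and `q ≠ 0` rational,
                                       `v_A(q) = 1 ↔ padicValRat ℓ q = 0`  (also `ratCast` form).
* `eq_one_or_neg_one_of_forall_valuation` : `x ∈ ℚ ⊂ ℚbar` with `v_A(x) = 1` for one `A` over each prime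
                                       is `±1`.
* `pow_four_eq_of_forall_valuation_eq_one` (the shape K-ASM consumes): `R₁ R₂ ∈ ℚ`, and for every
  prime `ℓ` some `A | ℓ` with `v_A (R₁ / (2^k R₂)) = 1`; then `R₁⁴ = (2^k)⁴ R₂⁴`
  (and `sq_eq_of_forall_valuation_eq_one`: `R₁² = (2^k)² R₂²`).
* `pow_four_eq_of_forall_valuation_eq` : the same from `v_A R₁ = v_A (2^k) * v_A R₂`, `R₂ ≠ 0`.
-/
import Mathlib
import Fermat.Prelude.Def_FLTPrelim_Ramification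
import Fermat.Agent.MAZ.EF86.Rat
import Fermat.Agent.S13.GalRat

set_option autoImplicit false

noncomputable section

namespace Fermat.Agent.S12P.Rat68

open Fermat.Agent.MAZ.EF86.Rat Fermat.Agent.S05.Inertia Fermat.Agent.S13.GalRat

local notation "Qb" => AlgebraicClosure ℚ

/-! ### rational units -/

/-- A nonzero rational number with trivial `ℓ`-adic valuation for every prime `ℓ` is `±1`. -/
theorem rat_eq_one_or_neg_one (q : ℚ) (hq : q ≠ 0)
    (h : ∀ ℓ : ℕ, ℓ.Prime → padicValRat ℓ q = 0) : q = 1 ∨ q = -1 := by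
  have hnum0 : q.num ≠ 0 := Rat.num_ne_zero.mpr hq
  have hcop : Nat.Coprime q.num.natAbs q.den := q.reduced
  -- no prime divides the numerator
  have hnum : q.num.natAbs = 1 := by
    rw [Nat.eq_one_iff_not_exists_prime_dvd]
    intro ℓ hℓ hdvd
    have : Fact ℓ.Prime := ⟨hℓ⟩
    have hden : ¬ ℓ ∣ q.den := fun hd =>
      hℓ.one_lt.ne' (Nat.eq_one_of_dvd_coprimes hcop hdvd hd)
    have h1 : padicValNat ℓ q.den = 0 := padicValNat.eq_zero_of_not_dvd hden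
    have h2 : 1 ≤ padicValInt ℓ q.num := by
      unfold padicValInt
      exact one_le_padicValNat_of_dvd (Int.natAbs_ne_zero.mpr hnum0) hdvd
    have h3 := h ℓ hℓ
    unfold padicValRat at h3
    rw [h1] at h3
    omega
  -- no prime divides the denominator
  have hden : q.den = 1 := by
    rw [Nat.eq_one_iff_not_exists_prime_dvd]
    intro ℓ hℓ hdvd
    have : Fact ℓ.Prime := ⟨hℓ⟩
    have hn : ¬ ℓ ∣ q.num.natAbs := fun hd =>
      hℓ.one_lt.ne' (Nat.eq_one_of_dvd_coprimes hcop hd hdvd)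
    have h1 : padicValInt ℓ q.num = 0 := by
      unfold padicValInt
      exact padicValNat.eq_zero_of_not_dvd hn
    have h2 : 1 ≤ padicValNat ℓ q.den := one_le_padicValNat_of_dvd q.den_ne_zero hdvd
    have h3 := h ℓ hℓ
    unfold padicValRat at h3
    rw [h1] at h3
    omega
  have hq' : q = q.num := by
    conv_lhs => rw [← Rat.num_div_den q, hden]
    simp
  rcases Int.natAbs_eq q.num with h1 | h1
  · left
    rw [hq', h1, hnum]; norm_num
  · right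
    rw [hq', h1, hnum]; norm_num

/-! ### valuations of rational numbers at places of `ℚbar` -/

section Val

variable (A : ValuationSubring Qb) {ℓ : ℕ}

/-- `v_A(q) = 1 ↔ ord_ℓ(q) = 0` for `A | ℓ` and a nonzero rational `q` (cast form). -/
theorem valuation_ratCast_eq_one_iff (hℓ : ℓ.Prime) (hA : A.LiesOverPrime ℓ) {q : ℚ}
    (hq : q ≠ 0) : A.valuation ((q : ℚ) : Qb) = 1 ↔ padicValRat ℓ q = 0 := by
  rw [valuation_ratCast_eq_zpow A hℓ hA hq]
  have hlt : A.valuation ((ℓ : ℕ) : Qb) < 1 := valuation_prime_lt_one hA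
  exact zpow_eq_one_iff_right₀ zero_le hlt.ne

/-- `v_A(q) = 1 ↔ ord_ℓ(q) = 0` for `A | ℓ` and a nonzero rational `q` (`algebraMap` form). -/
theorem valuation_algebraMap_eq_one_iff (hℓ : ℓ.Prime) (hA : A.LiesOverPrime ℓ) {q : ℚ}
    (hq : q ≠ 0) : A.valuation (algebraMap ℚ Qb q) = 1 ↔ padicValRat ℓ q = 0 := by
  rw [eq_ratCast (algebraMap ℚ Qb) q]
  exact valuation_ratCast_eq_one_iff A hℓ hA hq

end Val

/-- **RAT (2).** A rational number (inside `ℚbar`) which has valuation `1` at one place over every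
prime is `±1`. -/
theorem eq_one_or_neg_one_of_forall_valuation {x : Qb} (hx : x ∈ ratSub)
    (h : ∀ ℓ : ℕ, ℓ.Prime → ∃ A : ValuationSubring Qb, A.LiesOverPrime ℓ ∧ A.valuation x = 1) :
    x = 1 ∨ x = -1 := by
  obtain ⟨q, rfl⟩ := hx
  have hq : q ≠ 0 := by
    rintro rfl
    obtain ⟨A, -, hA⟩ := h 2 Nat.prime_two
    rw [map_zero, map_zero] at hA
    exact zero_ne_one hA
  have hval : ∀ ℓ : ℕ, ℓ.Prime → padicValRat ℓ q = 0 := by
    intro ℓ hℓ
    obtain ⟨A, hA, hv⟩ := h ℓ hℓ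
    exact (valuation_algebraMap_eq_one_iff A hℓ hA hq).mp hv
  rcases rat_eq_one_or_neg_one q hq hval with rfl | rfl
  · left; rw [map_one]
  · right; rw [map_neg, map_one]

/-- **RAT (3).** `R₁, R₂ ∈ ℚ` and, for every prime `ℓ`, some `A | ℓ` with
`v_A (R₁ / (2^k R₂)) = 1`: then `R₁ = ± 2^k R₂`. -/
theorem eq_or_eq_neg_of_forall_valuation_eq_one {R₁ R₂ : Qb} (h₁ : R₁ ∈ ratSub)
    (h₂ : R₂ ∈ ratSub) (k : ℕ)
    (h : ∀ ℓ : ℕ, ℓ.Prime → ∃ A : ValuationSubring Qb, A.LiesOverPrime ℓ ∧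
      A.valuation (R₁ / (2 ^ k * R₂)) = 1) :
    R₁ = 2 ^ k * R₂ ∨ R₁ = -(2 ^ k * R₂) := by
  have hmem : R₁ / (2 ^ k * R₂) ∈ ratSub :=
    div_mem h₁ (mul_mem (pow_mem (natCast_mem_ratSub 2) k) h₂)
  have hden : (2 : Qb) ^ k * R₂ ≠ 0 := by
    intro h0
    obtain ⟨A, -, hA⟩ := h 2 Nat.prime_two
    rw [h0, div_zero, map_zero] at hA
    exact zero_ne_one hA
  rcases eq_one_or_neg_one_of_forall_valuation hmem h with h1 | h1
  · left
    rwa [div_eq_iff hden, one_mul] at h1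
  · right
    rwa [div_eq_iff hden, neg_one_mul] at h1

/-- **RAT (3)**, squared form. -/
theorem sq_eq_of_forall_valuation_eq_one {R₁ R₂ : Qb} (h₁ : R₁ ∈ ratSub)
    (h₂ : R₂ ∈ ratSub) (k : ℕ)
    (h : ∀ ℓ : ℕ, ℓ.Prime → ∃ A : ValuationSubring Qb, A.LiesOverPrime ℓ ∧
      A.valuation (R₁ / (2 ^ k * R₂)) = 1) :
    R₁ ^ 2 = (2 ^ k) ^ 2 * R₂ ^ 2 := by
  rcases eq_or_eq_neg_of_forall_valuation_eq_one h₁ h₂ k h with h1 | h1 <;> rw [h1] <;> ring

/-- **RAT (3)**, the shape consumed by K-ASM: `R₁⁴ = (2^k)⁴ R₂⁴`. -/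
theorem pow_four_eq_of_forall_valuation_eq_one {R₁ R₂ : Qb} (h₁ : R₁ ∈ ratSub)
    (h₂ : R₂ ∈ ratSub) (k : ℕ)
    (h : ∀ ℓ : ℕ, ℓ.Prime → ∃ A : ValuationSubring Qb, A.LiesOverPrime ℓ ∧
      A.valuation (R₁ / (2 ^ k * R₂)) = 1) :
    R₁ ^ 4 = (2 ^ k) ^ 4 * R₂ ^ 4 := by
  rcases eq_or_eq_neg_of_forall_valuation_eq_one h₁ h₂ k h with h1 | h1 <;> rw [h1] <;> ring

/-- the same with `16 ^ k` -/
theorem pow_four_eq_sixteen_pow_mul {R₁ R₂ : Qb} (h₁ : R₁ ∈ ratSub)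
    (h₂ : R₂ ∈ ratSub) (k : ℕ)
    (h : ∀ ℓ : ℕ, ℓ.Prime → ∃ A : ValuationSubring Qb, A.LiesOverPrime ℓ ∧
      A.valuation (R₁ / (2 ^ k * R₂)) = 1) :
    R₁ ^ 4 = 16 ^ k * R₂ ^ 4 := by
  rw [pow_four_eq_of_forall_valuation_eq_one h₁ h₂ k h, ← pow_mul, mul_comm k 4, pow_mul]
  norm_num

/-- **RAT (3)** from an equality of valuations: `v_A R₁ = v_A(2)^k * v_A R₂` at one place over
every prime, `R₂ ≠ 0`. -/
theorem pow_four_eq_of_forall_valuation_eq {R₁ R₂ : Qb} (h₁ : R₁ ∈ ratSub)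
    (h₂ : R₂ ∈ ratSub) (h₂0 : R₂ ≠ 0) (k : ℕ)
    (h : ∀ ℓ : ℕ, ℓ.Prime → ∃ A : ValuationSubring Qb, A.LiesOverPrime ℓ ∧
      A.valuation R₁ = A.valuation (2 : Qb) ^ k * A.valuation R₂) :
    R₁ ^ 4 = (2 ^ k) ^ 4 * R₂ ^ 4 := by
  apply pow_four_eq_of_forall_valuation_eq_one h₁ h₂ k
  intro ℓ hℓ
  obtain ⟨A, hA, hv⟩ := h ℓ hℓ
  refine ⟨A, hA, ?_⟩
  have hden : (2 : Qb) ^ k * R₂ ≠ 0 := mul_ne_zero (pow_ne_zero k two_ne_zero) h₂0
  have hvden : A.valuation ((2 : Qb) ^ k * R₂) ≠ 0 := (Valuation.ne_zero_iff _).mpr hden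
  rw [map_div₀, hv, ← map_pow, ← map_mul]
  exact div_self hvden

end Fermat.Agent.S12P.Rat68
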